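import Fermat.Agent.S24.Alg
import Fermat.Agent.S24.Mod

/-!
# S18 / M2 — branch data in characteristic `0` (helper936)

Row S18, piece **M2** of `origin/helper18:coord/S18.md` §3: in characteristic `0` the function
field `F_M = ℚ̄(j(q^d) : d ∣ M)` is unramified over the `x`-line outside the branch values, for
`x = j` (branch values `0, 1728, ∞`), `x = t₂` (branch values `-64, 0, ∞`) and `x = t₃`
(branch values `-27, 0, ∞`).

## Main statements (all for `v : Place ℚ̄ (FF M)`)

* `ord_jF_sub_dvd` : `0 < ord_v (j - a)  →  ord_v (j - a) ∣ e(a)`, `e(0) = 3`, `e(1728) = 2`,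
  `e(a) = 1` otherwise.  (From the S24 analytic core: monodromy `= permOf (S*T)⁻¹`, `permOf S⁻¹`, `1`.)
* `branch_j`  : `a ≠ 0 → a ≠ 1728 → 0 < ord_v (j - a) → ord_v (j - a) = 1`.
* `branch_t2` : if `x : FF M` satisfies `j * x ^ 2 = (x + 256) ^ 3`, then for `c ≠ 0`, `c ≠ -64`:
  `0 < ord_v (x - c) → ord_v (x - c) = 1`.
* `branch_t3` : if `x : FF M` satisfies `j * x ^ 3 = (x + 27) * (x + 243) ^ 3`, then for `c ≠ 0`,
  `c ≠ -27`: `0 < ord_v (x - c) → ord_v (x - c) = 1`.
* `tame_t2`, `tame_t3` : at the finite branch values the ramification index divides `2` resp. `3`.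

The Hauptmodul relations are hypotheses here (they are piece M3 / c3 of the row).

## Abstract core (any function field `F/K`)

* `ord_aeval_at` : `ord_v P(x) = mult_c(P) * ord_v (x - c)` at a place over `x = c`.
* `ord_sub_mul_of_rel` : if `f * Q(x) = P(x)`, `Q(c) ≠ 0`, then
  `ord_v (f - a) = mult_c(P - a Q) * ord_v (x - c)`.
* `ord_sub_eq_one_of_rel` : if moreover `(X - c)^k ∣ P - a Q` and `ord_v (f - a) ∣ k` then
  `ord_v (x - c) = 1`.
-/

set_option autoImplicit false

noncomputable section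

open AlgebraicCurve ModularCurve Polynomial IntermediateField
open scoped MatrixGroups

namespace Fermat.Agent.S18.H936

open Fermat.Agent.S24

/-! ## Abstract core -/

section Abstract

variable {K F : Type*} [Field K] [Field F] [Algebra K F]

/-- Order of a polynomial in `x` at a place lying over `x = c`. -/
theorem ord_aeval_at (v : Place K F) {x : F} {c : K}
    (hv : 0 < v.ord (x - algebraMap K F c)) (P : K[X]) (hP : P ≠ 0) :
    aeval x P ≠ 0 ∧
      v.ord (aeval x P) = (P.rootMultiplicity c : ℤ) * v.ord (x - algebraMap K F c) := by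
  have hcomp : P.comp (X + C c) ≠ 0 := by
    intro h
    apply hP
    have h2 : (P.comp (X + C c)).comp (X - C c) = P := by
      rw [comp_assoc]
      simp
    rw [← h2, h, zero_comp]
  obtain ⟨h1, h2⟩ := H117.ord_aeval_eq v hv (P.comp (X + C c)) hcomp
  have hev : aeval (x - algebraMap K F c) (P.comp (X + C c)) = aeval x P := by
    rw [aeval_comp]
    simp
  rw [hev] at h1 h2
  refine ⟨h1, ?_⟩
  rw [h2, ← rootMultiplicity_eq_rootMultiplicity]

/-- If `f * Q(x) = P(x)` and `Q(c) ≠ 0`, then at a place over `x = c` the order of `f - a` is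
`mult_c (P - a Q) * ord (x - c)`. -/
theorem ord_sub_mul_of_rel (v : Place K F) {x f : F} {P Q : K[X]}
    (hrel : f * aeval x Q = aeval x P) {c : K} (hQc : Q.eval c ≠ 0) (a : K)
    (hR : P - C a * Q ≠ 0) (hv : 0 < v.ord (x - algebraMap K F c)) :
    f - algebraMap K F a ≠ 0 ∧
      v.ord (f - algebraMap K F a) =
        ((P - C a * Q).rootMultiplicity c : ℤ) * v.ord (x - algebraMap K F c) := by
  have hQ0 : Q ≠ 0 := by
    rintro rfl
    simp at hQc
  obtain ⟨hQne, hQord⟩ := ord_aeval_at v hv Q hQ0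
  have hmQ : Q.rootMultiplicity c = 0 := rootMultiplicity_eq_zero hQc
  rw [hmQ, Nat.cast_zero, zero_mul] at hQord
  obtain ⟨hRne, hRord⟩ := ord_aeval_at v hv (P - C a * Q) hR
  have key : (f - algebraMap K F a) * aeval x Q = aeval x (P - C a * Q) := by
    rw [sub_mul, hrel, map_sub, map_mul, aeval_C]
  have hfa : f - algebraMap K F a ≠ 0 := by
    intro h
    rw [h, zero_mul] at key
    exact hRne key.symm
  refine ⟨hfa, ?_⟩
  have h := v.ord_mul hfa hQne
  rw [key, hRord, hQord, add_zero] at h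
  exact h.symm

/-- **Abstract branch lemma.**  `f * Q(x) = P(x)`, `Q(c) ≠ 0`, `(X - c)^k ∣ P - a Q` and
`ord_v (f - a) ∣ k`  imply that `x - c` is a uniformiser at `v`. -/
theorem ord_sub_eq_one_of_rel (v : Place K F) {x f : F} {P Q : K[X]}
    (hrel : f * aeval x Q = aeval x P) {c : K} (hQc : Q.eval c ≠ 0) (a : K)
    {k : ℕ} (hk : 0 < k) (hR : P - C a * Q ≠ 0) (hdiv : (X - C c) ^ k ∣ P - C a * Q)
    (hord : 0 < v.ord (f - algebraMap K F a) → v.ord (f - algebraMap K F a) ∣ (k : ℤ))
    (hv : 0 < v.ord (x - algebraMap K F c)) :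
    v.ord (x - algebraMap K F c) = 1 := by
  obtain ⟨-, hford⟩ := ord_sub_mul_of_rel v hrel hQc a hR hv
  have hμ : k ≤ (P - C a * Q).rootMultiplicity c := (le_rootMultiplicity_iff hR).mpr hdiv
  set μ := (P - C a * Q).rootMultiplicity c with hμdef
  set e := v.ord (x - algebraMap K F c) with hedef
  have hμZ : (k : ℤ) ≤ (μ : ℤ) := by exact_mod_cast hμ
  have hkZ : (0 : ℤ) < k := by exact_mod_cast hk
  have hpos : 0 < v.ord (f - algebraMap K F a) := by
    rw [hford]
    have : (0 : ℤ) < μ := lt_of_lt_of_le hkZ hμZ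
    positivity
  have hd := hord hpos
  rw [hford] at hd
  have hle : (μ : ℤ) * e ≤ k := Int.le_of_dvd hkZ hd
  have h1 : (k : ℤ) * e ≤ (μ : ℤ) * e := mul_le_mul_of_nonneg_right hμZ hv.le
  have h2 : (k : ℤ) * e ≤ k * 1 := by linarith
  have h3 : e ≤ 1 := le_of_mul_le_mul_left h2 hkZ
  omega

/-- Variant of the abstract branch lemma at a branch value: the ramification index divides `k`
as soon as `P - a Q` does not vanish identically. -/
theorem ord_sub_dvd_of_rel (v : Place K F) {x f : F} {P Q : K[X]}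
    (hrel : f * aeval x Q = aeval x P) {c : K} (hQc : Q.eval c ≠ 0) (a : K)
    {k : ℕ} (hR : P - C a * Q ≠ 0) (hroot : (P - C a * Q).IsRoot c)
    (hord : 0 < v.ord (f - algebraMap K F a) → v.ord (f - algebraMap K F a) ∣ (k : ℤ))
    (hv : 0 < v.ord (x - algebraMap K F c)) :
    v.ord (x - algebraMap K F c) ∣ (k : ℤ) := by
  obtain ⟨-, hford⟩ := ord_sub_mul_of_rel v hrel hQc a hR hv
  have hμ : 0 < (P - C a * Q).rootMultiplicity c := (rootMultiplicity_pos hR).mpr hroot
  have hpos : 0 < v.ord (f - algebraMap K F a) := by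
    rw [hford]
    have : (0 : ℤ) < ((P - C a * Q).rootMultiplicity c : ℤ) := by exact_mod_cast hμ
    positivity
  have hd := hord hpos
  rw [hford] at hd
  exact dvd_of_mul_left_dvd hd

end Abstract

/-! ## Monodromy of `j` -/

section Monodromy

set_option linter.unusedSectionVars false

variable (N : ℕ) [NeZero N]

theorem neg_one_mem_Gamma0 : (-1 : SL(2, ℤ)) ∈ CongruenceSubgroup.Gamma0 N := by
  rw [CongruenceSubgroup.Gamma0_mem]
  simp

theorem permOf_neg_one : permOf N (-1) = 1 := by
  ext x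
  induction x using QuotientGroup.induction_on with
  | H g =>
    show ((-1 : SL(2, ℤ)) • (g : XX N)) = (g : XX N)
    rw [MulAction.Quotient.smul_coe, smul_eq_mul, QuotientGroup.eq]
    have : ((-1 : SL(2, ℤ)) * g)⁻¹ * g = -1 := by
      rw [mul_inv_rev]
      have h1 : (-1 : SL(2, ℤ))⁻¹ = -1 := by
        rw [inv_eq_iff_eq_inv, eq_inv_iff_mul_eq_one]
        simp
      rw [h1]
      simp
    rw [this]
    exact neg_one_mem_Gamma0 N

theorem permOf_pow (g : SL(2, ℤ)) (k : ℕ) : permOf N g ^ k = permOf N (g ^ k) := by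
  unfold permOf
  exact (map_pow (MulAction.toPermHom SL(2, ℤ) (XX N)) g k).symm

theorem S_sq : (ModularGroup.S : SL(2, ℤ)) ^ 2 = -1 := by decide

theorem ST_cube : (ModularGroup.S * ModularGroup.T : SL(2, ℤ)) ^ 3 = -1 := by decide

theorem inv_pow_eq_neg_one {g : SL(2, ℤ)} {k : ℕ} (h : g ^ k = -1) : g⁻¹ ^ k = -1 := by
  rw [inv_pow, h, inv_eq_iff_eq_inv, eq_inv_iff_mul_eq_one]
  simp

open Classical in
/-- The ramification exponent of `j` over `a`. -/
def ramExp (a : Kbar) : ℕ := if a = 0 then 3 else if a = 1728 then 2 else 1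

theorem ramExp_pos (a : Kbar) : 0 < ramExp a := by
  unfold ramExp
  split_ifs <;> norm_num

theorem dataFin_perm_pow (a : Kbar) :
    ((H997.analyticCore N).dataFin a).perm ^ ramExp a = 1 := by
  unfold ramExp H997.AnalyticCore.dataFin
  by_cases h0 : a = 0
  · rw [if_pos h0, dif_pos h0]
    show permOf N (ModularGroup.S * ModularGroup.T)⁻¹ ^ 3 = 1
    rw [permOf_pow, inv_pow_eq_neg_one ST_cube, permOf_neg_one]
  · rw [if_neg h0, dif_neg h0]
    by_cases h1 : a = 1728
    · rw [if_pos h1, dif_pos h1]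
      show permOf N ModularGroup.S⁻¹ ^ 2 = 1
      rw [permOf_pow, inv_pow_eq_neg_one S_sq, permOf_neg_one]
    · rw [if_neg h1, dif_neg h1]
      show permOf N 1⁻¹ ^ 1 = 1
      rw [pow_one, inv_one, H997.permOf_one]

/-- **Ramification of `j`.**  At a place over `j = a` the ramification index divides `3`, `2`, `1`
according to `a = 0`, `a = 1728`, or `a ∉ {0, 1728}`. -/
theorem ord_jF_sub_dvd (a : Kbar) (v : Place Kbar (FF N))
    (hv : 0 < v.ord (jF N - algebraMap Kbar (FF N) a)) :
    v.ord (jF N - algebraMap Kbar (FF N) a) ∣ (ramExp a : ℤ) := by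
  obtain ⟨hfd, hle⟩ := Deg457.degree_fields N
  have hrank : Module.finrank ↥(IntermediateField.adjoin Kbar {jF N}) (FF N) = Nat.card (XX N) :=
    le_antisymm hle (H997.analyticCore N).card_le_finrank
  obtain ⟨hfd', hfr⟩ := finiteDimensional_and_finrank_of_eq
    (adjoin_sub_algebraMap Kbar (jF N) a)
  have hr := hfr.trans hrank
  set d := (H997.analyticCore N).dataFin a with hd
  obtain ⟨x, rfl⟩ := H117.exists_placeOf_eq d _ le_rfl hr v hv
  refine H117.ord_t_dvd_of_pow_apply_eq d x (ramExp a) ?_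
  rw [dataFin_perm_pow]
  rfl

theorem branch_j (a : Kbar) (h0 : a ≠ 0) (h1 : a ≠ 1728) (v : Place Kbar (FF N))
    (hv : 0 < v.ord (jF N - algebraMap Kbar (FF N) a)) :
    v.ord (jF N - algebraMap Kbar (FF N) a) = 1 := by
  have h := ord_jF_sub_dvd N a v hv
  rw [ramExp, if_neg h0, if_neg h1, Nat.cast_one] at h
  exact Int.eq_one_of_dvd_one hv.le h

theorem ord_jF_dvd_three (v : Place Kbar (FF N)) (hv : 0 < v.ord (jF N)) :
    v.ord (jF N) ∣ 3 := by
  have h := ord_jF_sub_dvd N 0 v (by simpa using hv)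
  simpa [ramExp] using h

theorem ord_jF_sub_1728_dvd_two (v : Place Kbar (FF N))
    (hv : 0 < v.ord (jF N - 1728)) : v.ord (jF N - 1728) ∣ 2 := by
  have e : algebraMap Kbar (FF N) 1728 = 1728 := map_ofNat _ 1728
  have h := ord_jF_sub_dvd N 1728 v (by rw [e]; exact hv)
  have h1728 : (1728 : Kbar) ≠ 0 := by norm_num
  rw [e] at h
  simpa [ramExp, h1728] using h

end Monodromy

/-! ## Hauptmoduln of level `2` and `3` -/

section Haupt

set_option synthInstance.maxHeartbeats 400000
set_option maxHeartbeats 1000000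

variable (M : ℕ) [NeZero M]

local notation "𝔸" => algebraMap Kbar (FF M)

/-- `P₂ = (X + 256)³`, `Q₂ = X²`:  `j * Q₂(t₂) = P₂(t₂)`. -/
def P2 : Kbar[X] := (X + C 256) ^ 3

/-- `Q₂ = X²`. -/
def Q2 : Kbar[X] := X ^ 2

/-- `P₃ = (X + 27)(X + 243)³`, `Q₃ = X³`:  `j * Q₃(t₃) = P₃(t₃)`. -/
def P3 : Kbar[X] := (X + C 27) * (X + C 243) ^ 3

/-- `Q₃ = X³`. -/
def Q3 : Kbar[X] := X ^ 3

theorem P2_sub_ne_zero (a : Kbar) : P2 - C a * Q2 ≠ 0 := by
  intro h
  have h0 := congrArg (eval (0 : Kbar)) h
  unfold P2 Q2 at h0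
  simp only [eval_sub, eval_pow, eval_add, eval_X, eval_C, eval_mul, eval_zero] at h0
  norm_num at h0

theorem P3_sub_ne_zero (a : Kbar) : P3 - C a * Q3 ≠ 0 := by
  intro h
  have h0 := congrArg (eval (0 : Kbar)) h
  unfold P3 Q3 at h0
  simp only [eval_sub, eval_pow, eval_add, eval_X, eval_C, eval_mul, eval_zero] at h0
  norm_num at h0

variable {M}

theorem rel2_aeval {x : FF M} (hrel : jF M * x ^ 2 = (x + 256) ^ 3) :
    jF M * aeval x Q2 = aeval x P2 := by
  unfold P2 Q2
  simp only [map_pow, map_add, aeval_X, map_ofNat]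
  exact hrel

theorem rel3_aeval {x : FF M} (hrel : jF M * x ^ 3 = (x + 27) * (x + 243) ^ 3) :
    jF M * aeval x Q3 = aeval x P3 := by
  unfold P3 Q3
  simp only [map_pow, map_add, map_mul, aeval_X, map_ofNat]
  exact hrel

/-- **M2 for `x = t₂`.**  Outside `t₂ ∈ {0, -64, ∞}` the function field is unramified over the
`t₂`-line. -/
theorem branch_t2 {x : FF M} (hrel : jF M * x ^ 2 = (x + 256) ^ 3) (v : Place Kbar (FF M))
    (c : Kbar) (hc0 : c ≠ 0) (hc : c ≠ -64) (hv : 0 < v.ord (x - 𝔸 c)) :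
    v.ord (x - 𝔸 c) = 1 := by
  have hQc : Q2.eval c ≠ 0 := by
    unfold Q2
    simpa using hc0
  have hr := rel2_aeval hrel
  by_cases h256 : c = -256
  · -- over `j = 0`, triple root
    refine ord_sub_eq_one_of_rel v hr hQc 0 (k := 3) (by norm_num) (P2_sub_ne_zero 0) ?_ ?_ hv
    · refine ⟨1, ?_⟩
      unfold P2 Q2
      rw [h256]
      simp only [map_neg, map_ofNat, map_zero]
      ring
    · intro h
      simpa [ramExp] using ord_jF_sub_dvd M 0 v h
  by_cases h512 : c = 512
  · -- over `j = 1728`, double root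
    have h1728 : (1728 : Kbar) ≠ 0 := by norm_num
    refine ord_sub_eq_one_of_rel v hr hQc 1728 (k := 2) (by norm_num) (P2_sub_ne_zero 1728) ?_ ?_ hv
    · refine ⟨X + C 64, ?_⟩
      unfold P2 Q2
      rw [h512]
      simp only [map_ofNat]
      ring
    · intro h
      simpa [ramExp, h1728] using ord_jF_sub_dvd M 1728 v h
  · -- generic
    set a : Kbar := (c + 256) ^ 3 / c ^ 2 with ha
    have hac : a * c ^ 2 = (c + 256) ^ 3 := by
      rw [ha]
      field_simp
    have ha0 : a ≠ 0 := by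
      intro h
      rw [h, zero_mul] at hac
      have : c + 256 = 0 := by
        have := hac.symm
        exact pow_eq_zero_iff (by norm_num) |>.mp this
      exact h256 (by linear_combination this)
    have ha1728 : a ≠ 1728 := by
      intro h
      rw [h] at hac
      have hfac : (c - 512) ^ 2 * (c + 64) = 0 := by linear_combination -hac
      rcases mul_eq_zero.mp hfac with h1 | h1
      · have : c - 512 = 0 := pow_eq_zero_iff (by norm_num) |>.mp h1
        exact h512 (by linear_combination this)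
      · exact hc (by linear_combination h1)
    refine ord_sub_eq_one_of_rel v hr hQc a (k := 1) (by norm_num) (P2_sub_ne_zero a) ?_ ?_ hv
    · rw [pow_one, dvd_iff_isRoot]
      unfold P2 Q2
      simp only [IsRoot.def, eval_sub, eval_pow, eval_add, eval_X, eval_C, eval_mul]
      linear_combination -hac
    · intro h
      simpa [ramExp, ha0, ha1728] using ord_jF_sub_dvd M a v h

/-- At the branch value `t₂ = -64` the ramification index divides `2`. -/
theorem tame_t2 {x : FF M} (hrel : jF M * x ^ 2 = (x + 256) ^ 3) (v : Place Kbar (FF M))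
    (hv : 0 < v.ord (x - 𝔸 (-64))) : v.ord (x - 𝔸 (-64)) ∣ 2 := by
  have hQc : Q2.eval (-64 : Kbar) ≠ 0 := by
    unfold Q2
    norm_num
  have h1728 : (1728 : Kbar) ≠ 0 := by norm_num
  have := ord_sub_dvd_of_rel v (rel2_aeval hrel) hQc 1728 (k := 2) (P2_sub_ne_zero 1728) ?_ ?_ hv
  · exact_mod_cast this
  · unfold P2 Q2
    simp only [IsRoot.def, eval_sub, eval_pow, eval_add, eval_X, eval_C, eval_mul]
    norm_num
  · intro h
    simpa [ramExp, h1728] using ord_jF_sub_dvd M 1728 v h

/-- **M2 for `x = t₃`.**  Outside `t₃ ∈ {0, -27, ∞}` the function field is unramified over the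
`t₃`-line. -/
theorem branch_t3 {x : FF M} (hrel : jF M * x ^ 3 = (x + 27) * (x + 243) ^ 3)
    (v : Place Kbar (FF M)) (c : Kbar) (hc0 : c ≠ 0) (hc : c ≠ -27)
    (hv : 0 < v.ord (x - 𝔸 c)) :
    v.ord (x - 𝔸 c) = 1 := by
  have hQc : Q3.eval c ≠ 0 := by
    unfold Q3
    simpa using hc0
  have hr := rel3_aeval hrel
  by_cases h243 : c = -243
  · -- over `j = 0`, triple root
    refine ord_sub_eq_one_of_rel v hr hQc 0 (k := 3) (by norm_num) (P3_sub_ne_zero 0) ?_ ?_ hv
    · refine ⟨X + C 27, ?_⟩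
      unfold P3 Q3
      rw [h243]
      simp only [map_neg, map_ofNat, map_zero]
      ring
    · intro h
      simpa [ramExp] using ord_jF_sub_dvd M 0 v h
  by_cases hquad : c ^ 2 - 486 * c - 19683 = 0
  · -- over `j = 1728`, double root
    have h1728 : (1728 : Kbar) ≠ 0 := by norm_num
    refine ord_sub_eq_one_of_rel v hr hQc 1728 (k := 2) (by norm_num) (P3_sub_ne_zero 1728) ?_ ?_ hv
    · refine ⟨(X + (C c - 486)) ^ 2, ?_⟩
      have hC : (19683 : Kbar[X]) = C c ^ 2 - 486 * C c := by
        have h1 : (19683 : Kbar) = c ^ 2 - 486 * c := by linear_combination -hquad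
        have h2 := congrArg (C : Kbar → Kbar[X]) h1
        simpa only [map_sub, map_mul, map_pow, map_ofNat] using h2
      have e : (X ^ 2 - 486 * X - 19683 : Kbar[X]) = (X - C c) * (X + (C c - 486)) := by
        rw [hC]
        ring
      have e2 : P3 - C 1728 * Q3 = (X ^ 2 - 486 * X - 19683 : Kbar[X]) ^ 2 := by
        unfold P3 Q3
        simp only [map_ofNat]
        ring
      rw [e2, e]
      ring
    · intro h
      simpa [ramExp, h1728] using ord_jF_sub_dvd M 1728 v h
  · -- generic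
    set a : Kbar := (c + 27) * (c + 243) ^ 3 / c ^ 3 with ha
    have hac : a * c ^ 3 = (c + 27) * (c + 243) ^ 3 := by
      rw [ha]
      field_simp
    have ha0 : a ≠ 0 := by
      intro h
      rw [h, zero_mul] at hac
      rcases mul_eq_zero.mp hac.symm with h1 | h1
      · exact hc (by linear_combination h1)
      · have : c + 243 = 0 := pow_eq_zero_iff (by norm_num) |>.mp h1
        exact h243 (by linear_combination this)
    have ha1728 : a ≠ 1728 := by
      intro h
      rw [h] at hac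
      have hfac : (c ^ 2 - 486 * c - 19683) ^ 2 = 0 := by linear_combination -hac
      exact hquad (pow_eq_zero_iff (by norm_num) |>.mp hfac)
    refine ord_sub_eq_one_of_rel v hr hQc a (k := 1) (by norm_num) (P3_sub_ne_zero a) ?_ ?_ hv
    · rw [pow_one, dvd_iff_isRoot]
      unfold P3 Q3
      simp only [IsRoot.def, eval_sub, eval_pow, eval_add, eval_X, eval_C, eval_mul]
      linear_combination -hac
    · intro h
      simpa [ramExp, ha0, ha1728] using ord_jF_sub_dvd M a v h

/-- At the branch value `t₃ = -27` the ramification index divides `3`. -/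
theorem tame_t3 {x : FF M} (hrel : jF M * x ^ 3 = (x + 27) * (x + 243) ^ 3)
    (v : Place Kbar (FF M)) (hv : 0 < v.ord (x - 𝔸 (-27))) : v.ord (x - 𝔸 (-27)) ∣ 3 := by
  have hQc : Q3.eval (-27 : Kbar) ≠ 0 := by
    unfold Q3
    norm_num
  have := ord_sub_dvd_of_rel v (rel3_aeval hrel) hQc 0 (k := 3) (P3_sub_ne_zero 0) ?_ ?_ hv
  · exact_mod_cast this
  · unfold P3 Q3
    simp only [IsRoot.def, eval_sub, eval_pow, eval_add, eval_X, eval_C, eval_mul]
    norm_num
  · intro h
    simpa [ramExp] using ord_jF_sub_dvd M 0 v h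

end Haupt

end Fermat.Agent.S18.H936
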